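import Mathlib

set_option autoImplicit false

/-!
# Minkowski: a nontrivial finite Galois extension of `ℚ` has a prime with nontrivial inertia
-/

open scoped Pointwise

namespace Fermat.Agent.S13.H175

/-- For a Galois number field `F ≠ ℚ` there is a rational prime `q` such that every prime `P`
of the ring of integers of `F` containing `q` has a nontrivial inertia element. -/
theorem exists_inertia_ne_one (F : Type*) [Field F] [NumberField F] [IsGalois ℚ F]
    (hF : 1 < Module.finrank ℚ F) :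
    ∃ q : ℕ, q.Prime ∧ ∀ (P : Ideal (integralClosure ℤ F)), P.IsPrime →
      (q : integralClosure ℤ F) ∈ P →
      ∃ τ : F ≃ₐ[ℚ] F, τ ≠ 1 ∧ ∀ x : integralClosure ℤ F, τ • x - x ∈ P := by
  obtain ⟨q, hq, hram⟩ :=
    NumberField.exists_not_isUnramifiedAt_int_of_isGalois (K := F) (𝒪 := integralClosure ℤ F) hF
  refine ⟨q, hq, fun P hP hqP => ?_⟩
  have hnr := hram P hP hqP
  have := (IsIntegralClosure.algebraMap_injective (integralClosure ℤ F) ℤ F).isDomain
  have := IsIntegralClosure.isDedekindDomain ℤ ℚ F (integralClosure ℤ F)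
  have := IsIntegralClosure.isFractionRing_of_finite_extension ℤ ℚ F (integralClosure ℤ F)
  have := IsIntegralClosure.finite ℤ ℚ F (integralClosure ℤ F)
  have := CharZero.of_module (R := integralClosure ℤ F) F
  have : IsGaloisGroup (F ≃ₐ[ℚ] F) ℤ (integralClosure ℤ F) :=
    IsGaloisGroup.of_isFractionRing (F ≃ₐ[ℚ] F) ℤ (integralClosure ℤ F) ℚ F
  have hcard : Nat.card (P.inertia (F ≃ₐ[ℚ] F)) ≠ 1 := by
    rw [Ideal.card_inertia_eq_ramificationIdxIn (P.under ℤ) P,
      Ideal.ramificationIdxIn_eq_ramificationIdx (P.under ℤ) P (F ≃ₐ[ℚ] F),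
      Ne, Ideal.ramificationIdx_eq_one_iff]
    exact hnr
  have hne : P.inertia (F ≃ₐ[ℚ] F) ≠ ⊥ := fun h => hcard (Subgroup.card_eq_one.mpr h)
  obtain ⟨⟨τ, hτ⟩, hτ1⟩ := (Subgroup.ne_bot_iff_exists_ne_one).mp hne
  refine ⟨τ, fun h => hτ1 (Subtype.ext h), fun x => ?_⟩
  exact hτ x

end Fermat.Agent.S13.H175
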