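import Mathlib
import Fermat.Prelude.Def_FLTPrelim_Ramification
import Fermat.Agent.S54.FrobExists
import Fermat.Agent.S13.H175.InertiaLift
import Fermat.Agent.S13.H175.InertiaMem
import Fermat.Agent.S13.H175.MinkowskiInertia

set_option autoImplicit false
set_option linter.style.haveILetI false

/-!
# Minkowski's theorem for characters of `Gal(ℚ̄/ℚ)`

A homomorphism `χ` from `Gal(ℚ̄/ℚ)` with open kernel which is trivial on the inertia subgroup of
ONE valuation subring of `ℚ̄` over each rational prime is trivial.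
-/

open scoped Pointwise

namespace Fermat.Agent.S13.H175

/-- The ring hom from the integers of an intermediate field to the ring of all algebraic
integers. -/
noncomputable def intIncl (F : IntermediateField ℚ (AlgebraicClosure ℚ)) :
    integralClosure ℤ F →+* integralClosure ℤ (AlgebraicClosure ℚ) where
  toFun x := ⟨((x : F) : AlgebraicClosure ℚ), by
    have h := x.2
    exact h.map (F.val.restrictScalars ℤ)⟩
  map_one' := rfl
  map_mul' _ _ := rfl
  map_zero' := rfl
  map_add' _ _ := rfl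

theorem intIncl_coe (F : IntermediateField ℚ (AlgebraicClosure ℚ)) (x : integralClosure ℤ F) :
    ((intIncl F x : integralClosure ℤ (AlgebraicClosure ℚ)) : AlgebraicClosure ℚ) =
      ((x : F) : AlgebraicClosure ℚ) := rfl

theorem exists_inertia_not_fixing
    (N : Subgroup (AlgebraicClosure ℚ ≃ₐ[ℚ] AlgebraicClosure ℚ)) [hnormal : N.Normal]
    (hNopen : IsOpen (N : Set (AlgebraicClosure ℚ ≃ₐ[ℚ] AlgebraicClosure ℚ)))
    (hNtop : N ≠ ⊤) :
    ∃ q : ℕ, q.Prime ∧ ∀ A : ValuationSubring (AlgebraicClosure ℚ), A.LiesOverPrime q →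
      ∃ σ ∈ A.inertiaSubgroupIn ℚ, σ ∉ N := by
  have hgal := Fermat.Agent.S54.isGalois_algebraicClosure_rat
  have hclosed : IsClosed (N : Set (AlgebraicClosure ℚ ≃ₐ[ℚ] AlgebraicClosure ℚ)) :=
    Subgroup.isClosed_of_isOpen N hNopen
  set F : IntermediateField ℚ (AlgebraicClosure ℚ) := IntermediateField.fixedField N with hFdef
  have hfixN : F.fixingSubgroup = N := InfiniteGalois.fixingSubgroup_fixedField ⟨N, hclosed⟩
  have hgalF : IsGalois ℚ F := by
    have := IsGalois.of_fixedField_normal_subgroup N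
    convert this
    exact Subsingleton.elim _ _
  have hfdF : FiniteDimensional ℚ F := by
    have := (InfiniteGalois.isOpen_iff_finite F).mp (by rw [hfixN]; exact hNopen)
    convert this
  have hF : F ≠ ⊥ := by
    intro h
    apply hNtop
    rw [← hfixN, h]
    exact IntermediateField.fixingSubgroup_bot
  have : NumberField F := ⟨⟩
  have hfr : 1 < Module.finrank ℚ F := by
    have h1 : 0 < Module.finrank ℚ F := Module.finrank_pos
    have h2 : Module.finrank ℚ F ≠ 1 := by
      intro h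
      apply hF
      have h3 : Module.finrank ℚ F = 1 := by
        convert h using 2
      exact IntermediateField.finrank_eq_one_iff.mp h3
    omega
  obtain ⟨q, hq, hin⟩ := Fermat.Agent.S13.H175.exists_inertia_ne_one F hfr
  refine ⟨q, hq, fun A hA => ?_⟩
  have hQprime := Fermat.Agent.S54.primeBelow_isPrime A
  -- the prime of `𝓞_F` below `A`
  have hPprime : ((Fermat.Agent.S54.primeBelow A).comap (intIncl F)).IsPrime :=
    Ideal.comap_isPrime _ _
  have hqP : (q : integralClosure ℤ F) ∈ (Fermat.Agent.S54.primeBelow A).comap (intIncl F) := by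
    rw [Ideal.mem_comap, map_natCast, Fermat.Agent.S54.mem_primeBelow]
    have hA' : (q : AlgebraicClosure ℚ) ∈ A.nonunits := hA
    simpa using hA'
  obtain ⟨τ, hτ1, hτ⟩ := hin _ hPprime hqP
  -- lift `τ` to the absolute Galois group
  obtain ⟨g₀, hg₀⟩ := AlgEquiv.restrictNormalHom_surjective (F := ℚ) (K₁ := F)
    (AlgebraicClosure ℚ) τ
  have hg₀F : ∀ x : F, g₀ (x : AlgebraicClosure ℚ) = ((τ x : F) : AlgebraicClosure ℚ) := by
    intro x
    rw [← hg₀]
    exact (AlgEquiv.restrictNormal_commutes g₀ F x).symm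
  -- `g₀` acts trivially mod `Q` on the `N`-invariant algebraic integers
  have h₀ : ∀ x : integralClosure ℤ (AlgebraicClosure ℚ),
      (∀ n ∈ N, n • x = x) → g₀ • x - x ∈ Fermat.Agent.S54.primeBelow A := by
    intro x hx
    have hxF : (x : AlgebraicClosure ℚ) ∈ F := by
      rw [hFdef, IntermediateField.mem_fixedField_iff]
      intro f hf
      exact congrArg Subtype.val (hx f hf)
    have hxint : IsIntegral ℤ (⟨(x : AlgebraicClosure ℚ), hxF⟩ : F) := by
      have h1 : IsIntegral ℤ (x : AlgebraicClosure ℚ) := x.2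
      exact (isIntegral_algebraMap_iff (A := F) (B := AlgebraicClosure ℚ)
        (FaithfulSMul.algebraMap_injective F (AlgebraicClosure ℚ))).mp h1
    have h2 := hτ ⟨⟨(x : AlgebraicClosure ℚ), hxF⟩, hxint⟩
    have h2' : (((τ • (⟨⟨(x : AlgebraicClosure ℚ), hxF⟩, hxint⟩ : integralClosure ℤ F) -
        ⟨⟨(x : AlgebraicClosure ℚ), hxF⟩, hxint⟩ : integralClosure ℤ F) : F) :
        AlgebraicClosure ℚ) ∈ A.nonunits := h2
    rw [Fermat.Agent.S54.mem_primeBelow]
    have h3 := hg₀F ⟨(x : AlgebraicClosure ℚ), hxF⟩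
    have h4 : ((g₀ • x - x : integralClosure ℤ (AlgebraicClosure ℚ)) : AlgebraicClosure ℚ) =
        g₀ (x : AlgebraicClosure ℚ) - x := rfl
    rw [h4, h3]
    exact h2'
  -- apply the profinite lifting lemma
  letI : TopologicalSpace (integralClosure ℤ (AlgebraicClosure ℚ)) := ⊥
  haveI : DiscreteTopology (integralClosure ℤ (AlgebraicClosure ℚ)) := ⟨rfl⟩
  haveI := Fermat.Agent.S54.continuousSMul_integralClosure
  obtain ⟨σ, hσN, hσ⟩ := Fermat.Agent.S13.H175.exists_inertia_lift
    (G := AlgebraicClosure ℚ ≃ₐ[ℚ] AlgebraicClosure ℚ) N hclosed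
    (Fermat.Agent.S54.primeBelow A) g₀ h₀
  refine ⟨σ, ?_, ?_⟩
  · apply Fermat.Agent.S13.H175.mem_inertiaSubgroupIn_of_integral A q hq hA σ
    intro x hx
    exact hσ ⟨x, hx⟩
  · intro hσF
    apply hτ1
    have hg₀N : g₀ ∈ F.fixingSubgroup := by
      rw [hfixN]
      have h1 : g₀⁻¹ ∈ N := by
        have := N.mul_mem hσN (N.inv_mem hσF)
        simpa using this
      simpa using N.inv_mem h1
    ext x
    have h1 := hg₀F x
    have h2 := (IntermediateField.mem_fixingSubgroup_iff F g₀).mp hg₀N x x.2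
    rw [h2] at h1
    exact h1.symm

/-- **Minkowski for characters.** A homomorphism from `Gal(ℚ̄/ℚ)` with open kernel which is
trivial on the inertia subgroup of one valuation subring over every rational prime is trivial. -/
theorem minkowski_character {H : Type*} [Group H]
    (χ : (AlgebraicClosure ℚ ≃ₐ[ℚ] AlgebraicClosure ℚ) →* H)
    (hopen : ∃ s : Finset (AlgebraicClosure ℚ),
      ∀ σ : AlgebraicClosure ℚ ≃ₐ[ℚ] AlgebraicClosure ℚ, (∀ x ∈ s, σ x = x) → χ σ = 1)
    (hunr : ∀ q : ℕ, q.Prime → ∃ A : ValuationSubring (AlgebraicClosure ℚ),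
      A.LiesOverPrime q ∧ ∀ σ ∈ A.inertiaSubgroupIn ℚ, χ σ = 1) :
    ∀ σ, χ σ = 1 := by
  have hgal := Fermat.Agent.S54.isGalois_algebraicClosure_rat
  obtain ⟨s, hs⟩ := hopen
  by_contra hcon
  push Not at hcon
  obtain ⟨σ₀, hσ₀⟩ := hcon
  -- the kernel is open
  have hNopen : IsOpen (χ.ker : Set (AlgebraicClosure ℚ ≃ₐ[ℚ] AlgebraicClosure ℚ)) := by
    have hfd : FiniteDimensional ℚ
        (IntermediateField.adjoin ℚ (s : Set (AlgebraicClosure ℚ))) :=
      IntermediateField.finiteDimensional_adjoin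
        (fun x _ => (AlgebraicClosure.isAlgebraic ℚ).isIntegral.isIntegral x)
    have h1 := IntermediateField.fixingSubgroup_isOpen
      (IntermediateField.adjoin ℚ (s : Set (AlgebraicClosure ℚ)))
    refine Subgroup.isOpen_mono ?_ h1
    intro σ hσ
    rw [MonoidHom.mem_ker]
    apply hs
    intro x hx
    exact (IntermediateField.mem_fixingSubgroup_iff _ σ).mp hσ x
      (IntermediateField.subset_adjoin ℚ _ hx)
  have hNtop : χ.ker ≠ ⊤ := by
    intro h
    apply hσ₀
    have : σ₀ ∈ χ.ker := by rw [h]; trivial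
    exact MonoidHom.mem_ker.mp this
  obtain ⟨q, hq, hqA⟩ := exists_inertia_not_fixing χ.ker hNopen hNtop
  obtain ⟨A, hA, hAχ⟩ := hunr q hq
  obtain ⟨σ, hσI, hσN⟩ := hqA A hA
  exact hσN (MonoidHom.mem_ker.mpr (hAχ σ hσI))

/-- **Minkowski for normal subgroups.** A normal subgroup of `Gal(ℚ̄/ℚ)` which contains the
pointwise stabiliser of a finite set and the inertia subgroup of one valuation subring over
every rational prime is everything. -/
theorem minkowski_subgroup (H : Subgroup (AlgebraicClosure ℚ ≃ₐ[ℚ] AlgebraicClosure ℚ))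
    (hH : H.Normal)
    (hopen : ∃ s : Finset (AlgebraicClosure ℚ),
      ∀ σ : AlgebraicClosure ℚ ≃ₐ[ℚ] AlgebraicClosure ℚ, (∀ x ∈ s, σ x = x) → σ ∈ H)
    (hunr : ∀ q : ℕ, q.Prime → ∃ A : ValuationSubring (AlgebraicClosure ℚ),
      A.LiesOverPrime q ∧ ∀ σ ∈ A.inertiaSubgroupIn ℚ, σ ∈ H) : H = ⊤ := by
  have key := minkowski_character (QuotientGroup.mk' H)
    (by
      obtain ⟨s, hs⟩ := hopen
      exact ⟨s, fun σ hσ => (QuotientGroup.eq_one_iff σ).mpr (hs σ hσ)⟩)
    (by
      intro q hq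
      obtain ⟨A, hA, hAH⟩ := hunr q hq
      exact ⟨A, hA, fun σ hσ => (QuotientGroup.eq_one_iff σ).mpr (hAH σ hσ)⟩)
  rw [eq_top_iff]
  intro σ _
  exact (QuotientGroup.eq_one_iff σ).mp (key σ)

end Fermat.Agent.S13.H175
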